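/-
S59lib / LLsqHk / NormRedInf  (helper3)  — Project I, block LLsq, items (α₁), (β₁).

**The Hecke norm `T = N_α ∘ β` (`D.normStd N ℓ`) and a Gauss datum at the cusp `∞` of ANY level.**

Level `N = Mr * c` (`q ∤ Mr` the residue characteristic of `A`; `c` a power of `q` in the
applications: `c = q` for `v₁₀` of level `M q`, `c = q * q` for `v₂₀` of level `M q q`), `ℓ ∤ N q` a
prime, `D` a Gauss datum with `Val.IsGaussInf D` (ring = Gauss subring of level `N`, reduction =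
coefficientwise reduction into `FRes A Mr`).  Then

* `normStd_integral_inf`, `normStd_mem_and_redF_inf` : for `f` with `red f ≠ 0`,
  `T f ∈ O` and **`red (T f) = T̄ (red f)`**, `T̄ = S44lib.Q4.heckeFunK A Mr ℓ = N_ᾱ ∘ β̄`  (item (α₁));
* `normStd_algebraMap` : `T c = c ^ (ℓ + 1)` on constants;
* `normStd_val_inf` : **`v (T f) = v f ^ (ℓ + 1)`** for every `f` (item (β₁)).

This is the level-generic re-issue of helper2's `S44lib/Q4/NormRed` (level `M q`, `Old.IsGaussOne`).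
-/
import Fermat.Agent.S44lib.Q4.NormRed
import Fermat.Agent.S36lib.Val.Along

set_option autoImplicit false
set_option linter.unusedSectionVars false
set_option linter.style.haveILetI false

noncomputable section

namespace Fermat.Agent.S59lib.LLsqHk

open AlgebraicCurve ModularCurve IntermediateField Fermat.Agent.S18lib Fermat.Agent.S37lib
open Fermat.Agent.S28lib Fermat.Agent.LSb Fermat.Agent.LSb.Unit Fermat.Agent.S29lib
open Fermat.Agent.S44lib.Q4 Fermat.Agent.S36lib.Val Fermat.Agent.S18lib.V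

local notation "Qb" => AlgebraicClosure ℚ

variable {A : ValuationSubring (AlgebraicClosure ℚ)} {N Mr c ℓ q : ℕ} [NeZero N] [NeZero Mr]
  [NeZero ℓ] [NeZero q] [hq : Fact q.Prime]

local notation "kA" => IsLocalRing.ResidueField A

/-! ### the integral case -/

/-- **(R), integral case, any level `N = Mr * c`**: for `y ∈ A((t))` with `toL y ∈ FBar N` and
`ȳ = toK y ∈ FRes A Mr`, `N_α (β y)` is again an integral series, whose reduction is
`N_ᾱ (β̄ ȳ)`. -/
theorem exists_normStd_reduction_inf (hNc : N = Mr * c) (hA : A.LiesOverPrime q) (hqℓ : q ≠ ℓ)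
    (hℓ : ℓ.Prime) (hℓN : ¬ ℓ ∣ N) (hqMℓ : ¬ q ∣ Mr * ℓ) (hℓM : ¬ ℓ ∣ Mr)
    (y : LaurentSeries A) (hy : V.toL A y ∈ modularFunctionFieldBar N) (ybar : FRes A Mr)
    (hybar : (ybar : LaurentSeries kA) = V.toK A y) :
    ∃ (b : LaurentSeries A) (hb : V.toL A b ∈ modularFunctionFieldBar N),
      (⟨V.toL A b, hb⟩ : FBar N) = D.normStd N ℓ ⟨V.toL A y, hy⟩ ∧
      V.toK A b =
        ((ES.normAlong (alphaK A Mr ℓ) (betaK A Mr ℓ ybar) : FRes A Mr) : LaurentSeries kA) := by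
  classical
  haveI : Fact ℓ.Prime := ⟨hℓ⟩
  haveI : NeZero c := ⟨by
    rintro rfl
    exact NeZero.ne N (by rw [hNc, mul_zero])⟩
  letI := algebraAlong (heckeAlphaBar Qb N ℓ)
  -- roots of unity
  have hζ : IsPrimitiveRoot (ConjNorm.modPolyDataQbar ℓ).ζ ℓ := (ConjNorm.modPolyDataQbar ℓ).prim
  obtain ⟨ζA, hζA⟩ := ConjNorm.exists_unit_eq A hζ
  have hζApow : ζA ^ ℓ = 1 := by
    apply Units.map_injective (f := (A.subtype : A →* Qb)) Subtype.val_injective
    rw [map_pow, hζA, map_one]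
    exact hζ.pow_eq_one
  have hζAne : ζA ≠ 1 := by
    intro h1
    have : (ConjNorm.modPolyDataQbar ℓ).ζ = 1 := by rw [← hζA, h1, map_one]
    exact hζ.ne_one hℓ.one_lt this
  set ζk : kAˣ := Units.map (IsLocalRing.residue A : A →* kA) ζA with hζk
  have hζkprim : IsPrimitiveRoot ζk ℓ := isPrimitiveRoot_residue_unit hA hℓ hqℓ hζApow hζAne
  -- the norm over `ℚ̄`
  have hnorm := ConjNorm.qExpand_norm_heckeBetaBar N ℓ hℓ hℓN hζ ⟨V.toL A y, hy⟩
  set ν : FBar N :=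
    Algebra.norm (FBar N) (heckeBetaBar Qb N ℓ ⟨V.toL A y, hy⟩) with hν
  -- the integral series
  set b' : LaurentSeries A := qExpand A (ℓ * (N * ℓ * (N * ℓ))) y *
    ∏ i ∈ Finset.range ℓ, qExpand A (N * N * ℓ) (twist (ζA ^ i) y) with hb'
  have hLb' : V.toL A b' = qExpand Qb (N * ℓ * (N * ℓ)) (ν : LaurentSeries Qb) := by
    rw [hnorm, hb', map_mul, map_prod]
    congr 1
    · exact coeffMap_qExpand _ _ _
    · refine Finset.prod_congr rfl (fun i _ => ?_)
      show coeffMap A.subtype (qExpand A (N * N * ℓ) (twist (ζA ^ i) y)) = _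
      rw [coeffMap_qExpand, coeffMap_twist, map_pow, hζA]
      rfl
  have hrange : b' ∈ Set.range (qExpand A (N * ℓ * (N * ℓ))) := by
    rw [mem_range_qExpand_iff]
    intro n hn
    have h1 : (V.toL A b').coeff n = 0 := by
      rw [hLb']; exact qExpand_coeff_of_not_dvd _ _ hn
    rw [V.toL_coeff] at h1
    exact_mod_cast h1
  obtain ⟨b, hb⟩ := hrange
  have hLb : V.toL A b = (ν : LaurentSeries Qb) := by
    apply qExpand_injective (R := Qb) (N * ℓ * (N * ℓ))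
    rw [← hLb', ← hb]
    exact (coeffMap_qExpand _ _ _).symm
  -- the reduction
  have hKb' : V.toK A b' = qExpand kA (N * N * ℓ) (normExpr ζk ℓ (V.toK A y)) := by
    rw [hb', map_mul, map_prod, normExpr_apply, map_mul, map_prod, qExpand_qExpand]
    congr 1
    · rw [show V.toK A (qExpand A (ℓ * (N * ℓ * (N * ℓ))) y) =
        qExpand kA (ℓ * (N * ℓ * (N * ℓ))) (V.toK A y) from coeffMap_qExpand _ _ _]
      exact qExpand_congr (by ring) _
    · refine Finset.prod_congr rfl (fun i _ => ?_)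
      show coeffMap (IsLocalRing.residue A) (qExpand A (N * N * ℓ) (twist (ζA ^ i) y)) = _
      rw [coeffMap_qExpand, coeffMap_twist, map_pow]
      rfl
  -- the norm over `k`
  have hk := qExpand_normAlong_betaK hA hqMℓ hℓ hℓM hζkprim ybar
  rw [hybar] at hk
  have hk' : qExpand kA (N * ℓ * (N * ℓ))
      ((ES.normAlong (alphaK A Mr ℓ) (betaK A Mr ℓ ybar) : FRes A Mr) : LaurentSeries kA) =
      V.toK A b' := by
    have h1 := congrArg (qExpand kA (c * c)) hk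
    rw [qExpand_qExpand, qExpand_qExpand] at h1
    rw [hKb', qExpand_congr (show N * ℓ * (N * ℓ) = c * c * (Mr * ℓ * (Mr * ℓ)) by
      rw [hNc]; ring), h1]
    exact qExpand_congr (by rw [hNc]; ring) _
  have hKb : V.toK A b =
      ((ES.normAlong (alphaK A Mr ℓ) (betaK A Mr ℓ ybar) : FRes A Mr) : LaurentSeries kA) := by
    apply qExpand_injective (R := kA) (N * ℓ * (N * ℓ))
    rw [hk', ← hb]
    exact (coeffMap_qExpand _ _ _).symm
  refine ⟨b, ?_, ?_, hKb⟩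
  · rw [hLb]; exact ν.2
  · exact Subtype.ext hLb

/-! ### the general case -/

section General

variable {D1 : GaussDatum A (FBar N) (FRes A Mr)}

/-- the integral case, in terms of the Gauss datum -/
theorem normStd_integral_inf (h1 : IsGaussInf D1) (hNc : N = Mr * c) (hA : A.LiesOverPrime q)
    (hqℓ : q ≠ ℓ) (hℓ : ℓ.Prime) (hℓN : ¬ ℓ ∣ N) (hqMℓ : ¬ q ∣ Mr * ℓ) (hℓM : ¬ ℓ ∣ Mr)
    (a : IntRing N A) :
    D.normStd N ℓ (elemL a) ∈ D1.O ∧
      D1.redF (D.normStd N ℓ (elemL a)) = heckeFunK A Mr ℓ (D1.redF (elemL a)) := by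
  obtain ⟨b, hb, hbν, hbK⟩ := exists_normStd_reduction_inf hNc hA hqℓ hℓ hℓN hqMℓ hℓM a.1 a.2.1
    (D1.redF (elemL a)) (h1.red a)
  have he : D.normStd N ℓ (elemL a) = (⟨V.toL A b, hb⟩ : FBar N) := hbν.symm
  rw [he]
  refine ⟨h1.mem_of_integral b hb, Subtype.ext ?_⟩
  rw [h1.coe_redF_of_integral b hb, hbK]
  rfl

/-- **(α₁)**: `red (N_α (β f)) = N_ᾱ (β̄ (red f))` for every `f` with `red f ≠ 0`. -/
theorem normStd_mem_and_redF_inf (h1 : IsGaussInf D1) (hNc : N = Mr * c)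
    (hA : A.LiesOverPrime q) (hqℓ : q ≠ ℓ) (hℓ : ℓ.Prime) (hℓN : ¬ ℓ ∣ N)
    (hqMℓ : ¬ q ∣ Mr * ℓ) (hℓM : ¬ ℓ ∣ Mr) {f : FBar N} (hf : D1.redF f ≠ 0) :
    D.normStd N ℓ f ∈ D1.O ∧
      D1.redF (D.normStd N ℓ f) = heckeFunK A Mr ℓ (D1.redF f) := by
  have hfO : f ∈ D1.O := D1.mem_of_redF_ne_zero hf
  obtain ⟨a, b, hab⟩ := (h1.mem_iff f).1 hfO
  have hb0 : D1.redF (elemL b) ≠ 0 := h1.redF_elemL_ne_zero hab.1
  have hab' : f * elemL b = elemL a := hab.2
  obtain ⟨haO, hared⟩ := normStd_integral_inf h1 hNc hA hqℓ hℓ hℓN hqMℓ hℓM a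
  obtain ⟨hbO, hbred⟩ := normStd_integral_inf h1 hNc hA hqℓ hℓ hℓN hqMℓ hℓM b
  have hbO' : elemL b ∈ D1.O := D1.mem_of_redF_ne_zero hb0
  have hredab : D1.redF (elemL a) = D1.redF f * D1.redF (elemL b) := by
    rw [← hab']; exact D1.redF_mul hfO hbO'
  -- the norm of `b` is a unit
  have hNb0 : D1.redF (D.normStd N ℓ (elemL b)) ≠ 0 := by
    rw [hbred]; exact heckeFunK_ne_zero hb0
  have hmul : D.normStd N ℓ f * D.normStd N ℓ (elemL b) = D.normStd N ℓ (elemL a) := by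
    rw [← normStd_mul, hab']
  have hNbne : D.normStd N ℓ (elemL b) ≠ 0 := by
    intro h0
    rw [h0, D1.redF_zero] at hNb0
    exact hNb0 rfl
  have hfeq : D.normStd N ℓ f =
      D.normStd N ℓ (elemL a) * (D.normStd N ℓ (elemL b))⁻¹ := by
    rw [← hmul, mul_assoc, mul_inv_cancel₀ hNbne, mul_one]
  have hinvO : (D.normStd N ℓ (elemL b))⁻¹ ∈ D1.O := D1.inv_mem_of_redF_ne_zero hNb0
  have hfNO : D.normStd N ℓ f ∈ D1.O := by
    rw [hfeq]; exact D1.O.mul_mem _ _ haO hinvO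
  refine ⟨hfNO, ?_⟩
  have h2 : D1.redF (D.normStd N ℓ f) * D1.redF (D.normStd N ℓ (elemL b)) =
      D1.redF (D.normStd N ℓ (elemL a)) := by
    rw [← D1.redF_mul hfNO hbO, hmul]
  rw [hared, hbred, hredab, heckeFunK_mul] at h2
  exact mul_right_cancel₀ (heckeFunK_ne_zero hb0) h2

end General

/-! ### constants and valuations -/

/-- `T 0 = 0` -/
theorem normStd_zero : D.normStd N ℓ (0 : FBar N) = 0 := by
  letI := algebraAlong (heckeAlphaBar Qb N ℓ)
  haveI : FiniteDimensional (FBar N) (FBar (N * ℓ)) := HeckeInst.finite_alpha N ℓ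
  haveI : Module.Free (FBar N) (FBar (N * ℓ)) := Module.Free.of_divisionRing _ _
  show Algebra.norm (FBar N) (heckeBetaBar Qb N ℓ (0 : FBar N)) = 0
  rw [map_zero, Algebra.norm_zero]

theorem normStd_one : D.normStd N ℓ (1 : FBar N) = 1 := by
  letI := algebraAlong (heckeAlphaBar Qb N ℓ)
  show Algebra.norm (FBar N) (heckeBetaBar Qb N ℓ (1 : FBar N)) = 1
  rw [map_one, map_one]

/-- **`T c = c ^ (ℓ + 1)` on constants** -/
theorem normStd_algebraMap (hℓ : ℓ.Prime) (hℓN : ¬ ℓ ∣ N) (a : Qb) :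
    D.normStd N ℓ (algebraMap Qb (FBar N) a) = algebraMap Qb (FBar N) (a ^ (ℓ + 1)) := by
  letI := algebraAlong (heckeAlphaBar Qb N ℓ)
  show Algebra.norm (FBar N) (heckeBetaBar Qb N ℓ (algebraMap Qb (FBar N) a)) = _
  have h1 : heckeBetaBar Qb N ℓ (algebraMap Qb (FBar N) a) =
      algebraMap (FBar N) (FBar (N * ℓ)) (algebraMap Qb (FBar N) a) := by
    rw [AlgHom.commutes]
    exact ((heckeAlphaBar Qb N ℓ).commutes a).symm
  rw [h1, Algebra.norm_algebraMap, ConjNorm.finrank_alpha N ℓ hℓ hℓN, map_pow]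

theorem normStd_ne_zero {f : FBar N} (hf : f ≠ 0) : D.normStd N ℓ f ≠ 0 :=
  D.normAlong_ne_zero (heckeAlphaBar Qb N ℓ) ((map_ne_zero _).2 hf) (HeckeInst.finiteAlong_alpha N ℓ)

section Val

variable {D1 : GaussDatum A (FBar N) (FRes A Mr)}

/-- **(β₁)**: `v (T f) = v f ^ (ℓ + 1)` for the Gauss valuation at `∞`. -/
theorem normStd_val_inf (h1 : IsGaussInf D1) (hNc : N = Mr * c)
    (hA : A.LiesOverPrime q) (hqℓ : q ≠ ℓ) (hℓ : ℓ.Prime) (hℓN : ¬ ℓ ∣ N)
    (hqMℓ : ¬ q ∣ Mr * ℓ) (hℓM : ¬ ℓ ∣ Mr) (f : FBar N) :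
    D1.O.valuation (D.normStd N ℓ f) = D1.O.valuation f ^ (ℓ + 1) := by
  rcases eq_or_ne f 0 with rfl | hf
  · rw [normStd_zero, map_zero, zero_pow (Nat.succ_ne_zero ℓ)]
  obtain ⟨a, ha, u, hu⟩ := D1.exists_const_mul_isUnit f hf
  have hu0 : D1.redF ((u : D1.O) : FBar N) ≠ 0 := D1.redF_ne_zero_iff.2 ⟨u, rfl⟩
  obtain ⟨hTO, hTred⟩ := normStd_mem_and_redF_inf h1 hNc hA hqℓ hℓ hℓN hqMℓ hℓM hu0
  have hT0 : D1.redF (D.normStd N ℓ ((u : D1.O) : FBar N)) ≠ 0 := by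
    rw [hTred]; exact heckeFunK_ne_zero hu0
  have hv1 : D1.O.valuation (D.normStd N ℓ ((u : D1.O) : FBar N)) = 1 := by
    obtain ⟨u', hu'⟩ := D1.redF_ne_zero_iff.1 hT0
    rw [← hu']
    exact D1.O.valuation_unit u'
  have hvu : D1.O.valuation ((u : D1.O) : FBar N) = 1 := D1.O.valuation_unit u
  have hmul : D.normStd N ℓ (algebraMap Qb (FBar N) a) * D.normStd N ℓ f =
      D.normStd N ℓ ((u : D1.O) : FBar N) := by
    rw [← normStd_mul, hu]
  rw [normStd_algebraMap hℓ hℓN, map_pow] at hmul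
  have e1 := congrArg D1.O.valuation hmul
  have e2 := congrArg D1.O.valuation hu
  rw [map_mul, hv1, map_pow] at e1
  rw [map_mul, hvu] at e2
  have ha0 : D1.O.valuation (algebraMap Qb (FBar N) a) ≠ 0 :=
    (Valuation.ne_zero_iff _).2 ((map_ne_zero _).2 ha)
  have e3 : D1.O.valuation f = (D1.O.valuation (algebraMap Qb (FBar N) a))⁻¹ :=
    eq_inv_of_mul_eq_one_right e2
  have e4 : D1.O.valuation (D.normStd N ℓ f) =
      (D1.O.valuation (algebraMap Qb (FBar N) a) ^ (ℓ + 1))⁻¹ :=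
    eq_inv_of_mul_eq_one_right e1
  rw [e4, e3, inv_pow]

end Val

end Fermat.Agent.S59lib.LLsqHk
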