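/-
S59lib / LLsqHk / WQHecke  (helper3)  — Project I, block LLsq, items (α₃), (β₃): the input.

**The Atkin–Lehner involution `w_Q` of `FBar N`, `Q ∥ N` (`N = M Q`), commutes with the Hecke norm
`T = N_{α_ℓ} ∘ β_ℓ` (`D.normStd N ℓ`), `ℓ` prime to `Q`.**  Algebraic proof, as helper4's
`S35lib/New/WqHecke` (there `Q = q` prime, level `M q`), but with helper1's level-generic
`S36lib.AL.wQ`:

* `wQTop` : the Atkin–Lehner involution at `Q` of level `N ℓ = (M ℓ) Q`;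
* `wQTop_alpha`, `wQTop_beta` : it restricts along BOTH degeneracy maps `α_ℓ, β_ℓ : FBar N → FBar (N ℓ)`
  to `w_Q` of level `N` (check on the generators `j(t^d)`);
* **`normStd_wQ`** : `T (w_Q f) = w_Q (T f)`;
* `normStd_wqq` : the case `N = M q q`, `Q = q q` (`w_{q²}` of helper1's `AL/WQDeg`).
-/
import Fermat.Agent.S36lib.AL.WQDeg
import Fermat.Agent.S35lib.New.WqHecke

set_option autoImplicit false
set_option linter.unusedSectionVars false
set_option linter.unusedVariables false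
set_option linter.style.haveILetI false

noncomputable section

namespace Fermat.Agent.S59lib.LLsqHk

open AlgebraicCurve ModularCurve Fermat.Agent.S18lib Fermat.Agent.LSb Fermat.Agent.S29lib
open Fermat.Agent.LSb.Val Fermat.Agent.S36lib.AL

local notation "Qb" => AlgebraicClosure ℚ

section Generic

variable (N M Q : ℕ) [NeZero N] [NeZero M] [NeZero Q] (hN : N = M * Q) (hcop : Nat.Coprime M Q)
  (ℓ : ℕ) [NeZero ℓ] (hcopℓ : Nat.Coprime (M * ℓ) Q)

include hN in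
theorem wQTop_level : N * ℓ = M * ℓ * Q := by rw [hN]; ring

/-- the Atkin–Lehner involution at `Q` of level `N ℓ = (M ℓ) Q` -/
def wQTop : FBar (N * ℓ) ≃ₐ[Qb] FBar (N * ℓ) :=
  wQ (N * ℓ) (M * ℓ) Q (wQTop_level N M Q hN ℓ) hcopℓ

/-- **`W'' ∘ α_ℓ = α_ℓ ∘ w_Q`** -/
theorem wQTop_alpha (f : FBar N) :
    wQTop N M Q hN ℓ hcopℓ (heckeAlphaBar Qb N ℓ f) =
      heckeAlphaBar Qb N ℓ (wQ N M Q hN hcop f) := by
  have h : ((wQTop N M Q hN ℓ hcopℓ : FBar (N * ℓ) →+* FBar (N * ℓ))).comp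
      (heckeAlphaBar Qb N ℓ : FBar N →+* FBar (N * ℓ)) =
      ((heckeAlphaBar Qb N ℓ : FBar N →+* FBar (N * ℓ))).comp
        (wQ N M Q hN hcop : FBar N →+* FBar N) := by
    apply ringHom_ext_FBar (L := Qb) N
    · intro a
      simp only [RingHom.comp_apply, RingHom.coe_coe, AlgHom.commutes, AlgEquiv.commutes]
    · intro d' _ hd'
      simp only [RingHom.comp_apply, RingHom.coe_coe]
      obtain ⟨d, a, b, _, _, _, hdM, hQ, hda, hdb, e⟩ := exists_jd_factor N M Q hN d' hd'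
      have e' : ProgramR.BarField.jdBar (L := Qb) N d' hd' = jd N (d * a) hda := e
      have e1 := alpha_jd N ℓ (d * a) hda
      have e2 := wQ_jd N M Q hN hcop d a b hdM hQ hda hdb
      have e3 := alpha_jd N ℓ (d * b) hdb
      have e4 := wQ_jd (N * ℓ) (M * ℓ) Q (wQTop_level N M Q hN ℓ) hcopℓ d a b
        (hdM.trans (Dvd.intro _ rfl)) hQ (hda.trans (Dvd.intro _ rfl))
        (hdb.trans (Dvd.intro _ rfl))
      rw [e', e1, e2, e3]
      exact e4
  exact congrArg (fun φ : FBar N →+* FBar (N * ℓ) => φ f) h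

/-- **`W'' ∘ β_ℓ = β_ℓ ∘ w_Q`** -/
theorem wQTop_beta (f : FBar N) :
    wQTop N M Q hN ℓ hcopℓ (heckeBetaBar Qb N ℓ f) =
      heckeBetaBar Qb N ℓ (wQ N M Q hN hcop f) := by
  have h : ((wQTop N M Q hN ℓ hcopℓ : FBar (N * ℓ) →+* FBar (N * ℓ))).comp
      (heckeBetaBar Qb N ℓ : FBar N →+* FBar (N * ℓ)) =
      ((heckeBetaBar Qb N ℓ : FBar N →+* FBar (N * ℓ))).comp
        (wQ N M Q hN hcop : FBar N →+* FBar N) := by
    apply ringHom_ext_FBar (L := Qb) N
    · intro a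
      simp only [RingHom.comp_apply, RingHom.coe_coe, AlgHom.commutes, AlgEquiv.commutes]
    · intro d' _ hd'
      simp only [RingHom.comp_apply, RingHom.coe_coe]
      obtain ⟨d, a, b, _, _, _, hdM, hQ, hda, hdb, e⟩ := exists_jd_factor N M Q hN d' hd'
      have e' : ProgramR.BarField.jdBar (L := Qb) N d' hd' = jd N (d * a) hda := e
      have e1 := beta_jd N ℓ (d * a) hda
      have e2 := wQ_jd N M Q hN hcop d a b hdM hQ hda hdb
      have e3 := beta_jd N ℓ (d * b) hdb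
      have hda' : d * ℓ * a ∣ N * ℓ := by
        rw [Nat.mul_right_comm d ℓ a]; exact Nat.mul_dvd_mul_right hda ℓ
      have hdb' : d * ℓ * b ∣ N * ℓ := by
        rw [Nat.mul_right_comm d ℓ b]; exact Nat.mul_dvd_mul_right hdb ℓ
      have e4 := wQ_jd (N * ℓ) (M * ℓ) Q (wQTop_level N M Q hN ℓ) hcopℓ (d * ℓ) a b
        (Nat.mul_dvd_mul_right hdM ℓ) hQ hda' hdb'
      rw [e', e1, e2, e3,
        jd_congr (Nat.mul_right_comm d a ℓ) (Nat.mul_dvd_mul_right hda ℓ) hda',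
        jd_congr (Nat.mul_right_comm d b ℓ) (Nat.mul_dvd_mul_right hdb ℓ) hdb']
      exact e4
  exact congrArg (fun φ : FBar N →+* FBar (N * ℓ) => φ f) h

include hcopℓ in
/-- **`T (w_Q f) = w_Q (T f)`**, `T = N_{α_ℓ} ∘ β_ℓ` -/
theorem normStd_wQ (f : FBar N) :
    D.normStd N ℓ (wQ N M Q hN hcop f) = wQ N M Q hN hcop (D.normStd N ℓ f) := by
  unfold D.normStd
  rw [← wQTop_beta N M Q hN hcop ℓ hcopℓ f]
  exact S35lib.New.wqHecke_normAlong_comm (heckeAlphaBar Qb N ℓ) (wQ N M Q hN hcop)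
    (wQTop N M Q hN ℓ hcopℓ) (fun f => wQTop_alpha N M Q hN hcop ℓ hcopℓ f) _

end Generic

section Sq

variable (M q : ℕ) [NeZero M] [NeZero q] (hq : q.Prime) (hqM : ¬ q ∣ M) (ℓ : ℕ) [NeZero ℓ]

include hq hqM in
theorem coprime_mul_sq {ℓ : ℕ} (hqℓ : ¬ q ∣ ℓ) : Nat.Coprime (M * ℓ) (q * q) := by
  have h1 : Nat.Coprime q M := (Nat.Prime.coprime_iff_not_dvd hq).mpr hqM
  have h2 : Nat.Coprime q ℓ := (Nat.Prime.coprime_iff_not_dvd hq).mpr hqℓ
  have h3 : Nat.Coprime q (M * ℓ) := Nat.Coprime.mul_right h1 h2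
  exact (Nat.Coprime.mul_left h3 h3).symm

/-- **`T (w_{q²} f) = w_{q²} (T f)`** at level `M q q` -/
theorem normStd_wqq (hqℓ : ¬ q ∣ ℓ) (f : FBar (M * q * q)) :
    D.normStd (M * q * q) ℓ (wqq M q hq hqM f) = wqq M q hq hqM (D.normStd (M * q * q) ℓ f) :=
  normStd_wQ (M * q * q) M (q * q) (Nat.mul_assoc M q q) (coprime_sq M q hq hqM) ℓ
    (coprime_mul_sq M q hq hqM hqℓ) f

end Sq

end Fermat.Agent.S59lib.LLsqHk
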