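/-
S59lib / LLsqHk / HeckeFix  (helper3)  — Project I, block LLsq, items (α), (β): descent to the
inertia-fixed fields.

* `normAlong_ringEquiv_comm` : the norm along `ψ` commutes with a pair of RING automorphisms
  compatible with `ψ` (semilinear version of helper4's `wqHecke_normAlong_comm`);
* `galAutBar_normStd` : **`T = N_{α_ℓ} ∘ β_ℓ` commutes with the coefficientwise action of `G_ℚ`**;
* `heckeFix N ℓ H : fixF N H →*₀ fixF N H` : `T` on the fixed field of any subgroup `H ≤ G_ℚ`;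
  `coe_heckeFix`, `heckeFix_algebraMap` (`T c = c ^ (ℓ + 1)` on `K`-constants);
* `IsHeckeGood D` : a Gauss datum `D` over `(ℚ̄, A)` on `FBar N` with residue field `FRes A Mr` for which
  `red (T f) = T̄ (red f)` on units (`T̄ = heckeFunK A Mr ℓ`); instances: `IsGaussInf` data
  (`isHeckeGood_of_isGaussInf`), transports by automorphisms commuting with `T`
  (`IsHeckeGood.of_comp`);
* for a `K`-rational datum `D'` with `Desc2.Compat D D'`:
  `IsHeckeGood.fix_redF` (item (α)), `IsHeckeGood.fix_val` (item (β), exponent form);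
* `val_map_of_unit` : the abstract passage "`T` preserves units, `v (T π) = v π ^ d`" ⟹
  "`v u = v π ^ w → v (T u) = v π ^ (d w)`".
-/
import Fermat.Agent.S59lib.LLsqHk.NormRedInf
import Fermat.Agent.S59lib.LLsqHk.WQHecke
import Fermat.Agent.S36lib.Norm.DescendInst
import Fermat.Agent.S36lib.Desc2.FixedLift

set_option autoImplicit false
set_option linter.unusedSectionVars false
set_option linter.style.haveILetI false

noncomputable section

namespace Fermat.Agent.S59lib.LLsqHk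

open AlgebraicCurve ModularCurve Fermat.Agent.S18lib Fermat.Agent.S29lib Fermat.Agent.S29lib.GH
open Fermat.Agent.S37lib.HeckeInst (FB)
open Fermat.Agent.S36lib.Desc2 Fermat.Agent.S36lib.Norm Fermat.Agent.S36lib.Val
open Fermat.Agent.S44lib.Q4

local notation "Qb" => AlgebraicClosure ℚ
local notation "GQ" => (AlgebraicClosure ℚ ≃ₐ[ℚ] AlgebraicClosure ℚ)

/-! ### norms and ring automorphisms -/

section NormEquiv

variable {K F F' : Type*} [Field K] [Field F] [Field F'] [Algebra K F] [Algebra K F']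

/-- the norm along `ψ` commutes with a pair of ring automorphisms compatible with `ψ` -/
theorem normAlong_ringEquiv_comm (ψ : F →ₐ[K] F') (w : F ≃+* F) (W : F' ≃+* F')
    (h : ∀ f : F, W (ψ f) = ψ (w f)) (y : F') :
    D.normAlong ψ (W y) = w (D.normAlong ψ y) := by
  letI := algebraAlong ψ
  show Algebra.norm F (W y) = w (Algebra.norm F y)
  have he : RingHom.comp (algebraMap F F') (w : F →+* F) =
      RingHom.comp (W : F' →+* F') (algebraMap F F') := by
    ext f
    exact (h f).symm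
  have key := Algebra.norm_eq_of_equiv_equiv w W he y
  have h2 : w (Algebra.norm F y) = Algebra.norm F (W y) := by
    rw [key, RingEquiv.apply_symm_apply]
  exact h2.symm

end NormEquiv

/-! ### `T` and the Galois action -/

section Galois

variable (N ℓ : ℕ) [NeZero N] [NeZero ℓ]

/-- **`T = N_{α_ℓ} ∘ β_ℓ` commutes with the coefficientwise action of `G_ℚ`** -/
theorem galAutBar_normStd (σ : GQ) (f : FB N) :
    galAutBar N σ • D.normStd N ℓ f = D.normStd N ℓ (galAutBar N σ • f) := by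
  unfold D.normStd
  have hβ : heckeBetaBar Qb N ℓ (galAutBar N σ • f) =
      galAutBar (N * ℓ) σ • heckeBetaBar Qb N ℓ f := (intertwines_beta N ℓ σ f).symm
  rw [hβ]
  exact (normAlong_ringEquiv_comm (heckeAlphaBar Qb N ℓ)
    (arithmeticRingAut (modularFunctionFieldFull N) σ)
    (arithmeticRingAut (modularFunctionFieldFull (N * ℓ)) σ)
    (fun g => intertwines_alpha N ℓ σ g) _).symm

variable (H : Subgroup GQ)

/-- **`T` on the fixed field of `H`** -/
def heckeFix : fixF N H →*₀ fixF N H where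
  toFun u := ⟨D.normStd N ℓ (u : FB N), by
    rw [mem_fixF]
    intro σ hσ
    rw [galAutBar_normStd, mem_fixF.1 u.2 σ hσ]⟩
  map_zero' := Subtype.ext normStd_zero
  map_one' := Subtype.ext normStd_one
  map_mul' := fun u v => Subtype.ext (normStd_mul N ℓ _ _)

theorem coe_heckeFix (u : fixF N H) :
    ((heckeFix N ℓ H u : fixF N H) : FB N) = D.normStd N ℓ (u : FB N) := rfl

/-- `T c = c ^ (ℓ + 1)` on `K`-constants -/
theorem heckeFix_algebraMap (hℓ : ℓ.Prime) (hℓN : ¬ ℓ ∣ N) (c : fixK H) :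
    heckeFix N ℓ H (algebraMap (fixK H) (fixF N H) c) =
      algebraMap (fixK H) (fixF N H) (c ^ (ℓ + 1)) := by
  apply Subtype.ext
  rw [coe_heckeFix, coe_algebraMap_fixF, coe_algebraMap_fixF, normStd_algebraMap hℓ hℓN,
    map_pow (algebraMap (fixK H) Qb)]

theorem heckeFix_ne_zero {u : fixF N H} (hu : u ≠ 0) : heckeFix N ℓ H u ≠ 0 := by
  intro h
  have h1 : D.normStd N ℓ (u : FB N) = 0 := by
    rw [← coe_heckeFix, h]; rfl
  exact normStd_ne_zero (fun h0 => hu (Subtype.ext h0)) h1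

end Galois

/-! ### units and valuations -/

section Units

variable {F : Type*} [Field F]

/-- `v z = 1` iff `z` and `z⁻¹` lie in the valuation ring -/
theorem val_eq_one_iff_mem (O : ValuationSubring F) (z : F) :
    O.valuation z = 1 ↔ z ≠ 0 ∧ z ∈ O ∧ z⁻¹ ∈ O := by
  constructor
  · intro h
    have hz : z ≠ 0 := by
      rintro rfl
      rw [map_zero] at h
      exact zero_ne_one h
    refine ⟨hz, (O.valuation_le_one_iff z).1 h.le, (O.valuation_le_one_iff z⁻¹).1 ?_⟩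
    rw [map_inv₀, h, inv_one]
  · rintro ⟨hz, h1, h2⟩
    have e1 : O.valuation z ≤ 1 := (O.valuation_le_one_iff z).2 h1
    have e2 : O.valuation z⁻¹ ≤ 1 := (O.valuation_le_one_iff z⁻¹).2 h2
    have hz0 : O.valuation z ≠ 0 := (Valuation.ne_zero_iff _).2 hz
    rw [map_inv₀] at e2
    have e3 : 1 ≤ O.valuation z := by
      have := (inv_le_one₀ (zero_lt_iff.2 hz0)).1 e2
      exact this
    exact le_antisymm e1 e3

/-- **"`T` preserves units and `v (T π) = v π ^ d`" gives the exponent form of (β)** -/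
theorem val_map_of_unit (O : ValuationSubring F) (T : F →*₀ F) {π : F} (hπ : π ≠ 0) (d : ℕ)
    (hunit : ∀ z : F, O.valuation z = 1 → O.valuation (T z) = 1)
    (hTπ : O.valuation (T π) = O.valuation π ^ d) (u : F) (w : ℤ)
    (hu : O.valuation u = O.valuation π ^ w) :
    O.valuation (T u) = O.valuation π ^ ((d : ℤ) * w) := by
  have hπ0 : O.valuation π ≠ 0 := (Valuation.ne_zero_iff _).2 hπ
  have hz : O.valuation (u * π ^ (-w)) = 1 := by
    rw [map_mul, map_zpow₀, hu, ← zpow_add₀ hπ0, add_neg_cancel, zpow_zero]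
  have h1 := hunit _ hz
  rw [map_mul, map_zpow₀, map_mul, map_zpow₀, hTπ] at h1
  have h2 : O.valuation (T u) = ((O.valuation π ^ d) ^ (-w))⁻¹ :=
    eq_inv_of_mul_eq_one_left h1
  rw [h2, zpow_neg, inv_inv, ← zpow_natCast, ← zpow_mul]

end Units

/-! ### Hecke-good Gauss data -/

section Good

variable {A : ValuationSubring Qb} {N Mr ℓ : ℕ} [NeZero N] [NeZero Mr] [NeZero ℓ]

local notation "kA" => IsLocalRing.ResidueField A

/-- **`red (T f) = T̄ (red f)` on units**, `T̄ = N_ᾱ ∘ β̄` of level `Mr` -/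
def IsHeckeGood (D1 : GaussDatum A (FBar N) (FRes A Mr)) (ℓ : ℕ) [NeZero ℓ] : Prop :=
  ∀ f : FBar N, D1.redF f ≠ 0 →
    D.normStd N ℓ f ∈ D1.O ∧ D1.redF (D.normStd N ℓ f) = heckeFunK A Mr ℓ (D1.redF f)

/-- Gauss data at the cusp `∞` are Hecke-good -/
theorem isHeckeGood_of_isGaussInf {D1 : GaussDatum A (FBar N) (FRes A Mr)} {c q : ℕ} [NeZero q]
    [Fact q.Prime] (h1 : IsGaussInf D1) (hNc : N = Mr * c)
    (hA : A.LiesOverPrime q) (hqℓ : q ≠ ℓ) (hℓ : ℓ.Prime) (hℓN : ¬ ℓ ∣ N)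
    (hqMℓ : ¬ q ∣ Mr * ℓ) (hℓM : ¬ ℓ ∣ Mr) : IsHeckeGood D1 ℓ :=
  fun _ hf => normStd_mem_and_redF_inf h1 hNc hA hqℓ hℓ hℓN hqMℓ hℓM hf

/-- the transport of a Hecke-good datum by an automorphism commuting with `T` is Hecke-good -/
theorem IsHeckeGood.of_comp {D1 D2 : GaussDatum A (FBar N) (FRes A Mr)} (h1 : IsHeckeGood D1 ℓ)
    (w : FBar N → FBar N) (hmem : ∀ x, x ∈ D2.O ↔ w x ∈ D1.O)
    (hred : ∀ x, D2.redF x = D1.redF (w x))
    (hw : ∀ f, D.normStd N ℓ (w f) = w (D.normStd N ℓ f)) : IsHeckeGood D2 ℓ := by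
  intro f hf
  rw [hred] at hf
  obtain ⟨hO, hr⟩ := h1 (w f) hf
  rw [hw] at hO hr
  exact ⟨(hmem _).2 hO, by rw [hred, hred]; exact hr⟩

theorem IsHeckeGood.redF_ne_zero {D1 : GaussDatum A (FBar N) (FRes A Mr)}
    (h1 : IsHeckeGood D1 ℓ) {f : FBar N} (hf : D1.redF f ≠ 0) :
    D1.redF (D.normStd N ℓ f) ≠ 0 := by
  rw [(h1 f hf).2]
  exact heckeFunK_ne_zero hf

variable {H : Subgroup GQ} {R : ValuationSubring (fixK H)}
  [Algebra (IsLocalRing.ResidueField R) (FRes A Mr)]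
variable {D1 : GaussDatum A (FBar N) (FRes A Mr)} {D1' : GaussDatum R (fixF N H) (FRes A Mr)}

/-- **(α) on the fixed field** -/
theorem IsHeckeGood.fix_redF (h1 : IsHeckeGood D1 ℓ) (hc : Compat D1 D1') {u : fixF N H}
    (hu : D1'.redF u ≠ 0) :
    heckeFix N ℓ H u ∈ D1'.O ∧ D1'.redF (heckeFix N ℓ H u) = heckeFunK A Mr ℓ (D1'.redF u) := by
  rw [hc.red] at hu
  obtain ⟨hO, hr⟩ := h1 _ hu
  refine ⟨(hc.mem _).2 hO, ?_⟩
  rw [hc.red, hc.red]
  exact hr

/-- `T` preserves the units of a `K`-rational Hecke-good datum -/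
theorem IsHeckeGood.fix_unit (h1 : IsHeckeGood D1 ℓ) (hc : Compat D1 D1') (z : fixF N H)
    (hz : D1'.O.valuation z = 1) : D1'.O.valuation (heckeFix N ℓ H z) = 1 := by
  have hz1 : D1'.redF z ≠ 0 := by
    obtain ⟨-, h2, h3⟩ := (val_eq_one_iff_mem _ _).1 hz
    have hu : IsUnit (⟨z, h2⟩ : D1'.O) := (D1'.O.valuation_eq_one_iff ⟨z, h2⟩).2 hz
    obtain ⟨u, hu⟩ := hu
    exact D1'.redF_ne_zero_iff.2 ⟨u, by rw [hu]⟩
  obtain ⟨hO, hr⟩ := h1.fix_redF hc hz1
  have h0 : D1'.redF (heckeFix N ℓ H z) ≠ 0 := by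
    rw [hr]; exact heckeFunK_ne_zero hz1
  obtain ⟨u', hu'⟩ := D1'.redF_ne_zero_iff.1 h0
  rw [← hu']
  exact D1'.O.valuation_unit u'

/-- **(β) on the fixed field, exponent form** -/
theorem IsHeckeGood.fix_val (h1 : IsHeckeGood D1 ℓ) (hc : Compat D1 D1') (hℓ : ℓ.Prime)
    (hℓN : ¬ ℓ ∣ N) {π : fixK H} (hπ : π ≠ 0) (u : fixF N H) (w : ℤ)
    (hu : D1'.O.valuation u = D1'.O.valuation (algebraMap (fixK H) (fixF N H) π) ^ w) :
    D1'.O.valuation (heckeFix N ℓ H u) =
      D1'.O.valuation (algebraMap (fixK H) (fixF N H) π) ^ (((ℓ + 1 : ℕ) : ℤ) * w) := by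
  refine val_map_of_unit D1'.O (heckeFix N ℓ H) ((map_ne_zero _).2 hπ) (ℓ + 1)
    (h1.fix_unit hc) ?_ u w hu
  rw [heckeFix_algebraMap N ℓ H hℓ hℓN, map_pow, map_pow]

end Good

end Fermat.Agent.S59lib.LLsqHk
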