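/-
S59lib / LLsqHk / MidHecke  (helper3)  — Project I, block LLsq, items (α₂), (β₂): the abstract step.

**The middle (ramified) component `V₂` of a thick datum and an operator `T` commuting with the norm
`N_α : F → G`.**  Setting of helper7's `Norm/ChainInst`: `X : AlphaData D L ψ q ι₁ ι₂ ι₃` (over `W₁`
lie `V₁` (`e = f = 1`) and `V₂` (`e = D.e`, `f = 1`)), here with `F₁ = F₂ = G₁ = κ` and
`ι₁ = ι₂ = refl` (the modular instance).  Let `T : F →*₀ F`, `T' : G →*₀ G` with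
`N_α (T u) = T' (N_α u)`.

* `alphaData_mid_val` : **(β₂)**  if `T` multiplies `V₁`-orders by `d` and `T'` multiplies `W₁`-orders
  by `d`, then `T` multiplies `V₂`-orders by `d`
  (`w₂(T u) = W₁(N_α T u) - w₁(T u) = d (w₁ + w₂) - d w₁`);
* `alphaData_mid_redF` : **(α₂)**  if moreover `red₁ (T u) = S (red₁ u)` and `red_{W₁} (T' g) = S (red g)`
  on units, then for a total unit `u`:  `(red₂ (T u)) ^ e = (S (red₂ u)) ^ e`
  (`red_{W₁}(N_α u) = red₁ u · (red₂ u) ^ e`).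
-/
import Fermat.Agent.S36lib.Norm.ChainInst

set_option autoImplicit false
set_option linter.unusedSectionVars false
set_option linter.style.haveILetI false

noncomputable section

namespace Fermat.Agent.S59lib.LLsqHk

open Fermat.Agent.S18lib Fermat.Agent.S36lib.Thick Fermat.Agent.S36lib.J
open Fermat.Agent.S36lib.Norm

universe u

variable {K : Type*} [Field K] {R : ValuationSubring K}
variable {F : Type*} [Field F] [Algebra K F]
variable {κ F₃ : Type u} [Field κ] [Field F₃]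
variable [Algebra (IsLocalRing.ResidueField R) κ] [Algebra (IsLocalRing.ResidueField R) F₃]
variable {G : Type*} [Field G] [Algebra K G]
variable {G₂ : Type*} [Field G₂] [Algebra (IsLocalRing.ResidueField R) G₂]
variable {D : ThickDatum R F κ κ F₃} {L : LowDatum R G κ G₂} {ψ : G →+* F} {q : ℕ}
variable {ι₃ : G₂ →+* F₃}

/-- the valuation of an element of the middle component, in terms of the uniformizer -/
theorem exists_zpow_mid (D : ThickDatum R F κ κ F₃) {u : F} (hu : u ≠ 0) :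
    ∃ j : ℤ, D.V₂.O.valuation u = D.V₂.O.valuation D.ϖ ^ j := by
  obtain ⟨j, v, hv⟩ := D.V₂.exists_zpow_mul_isUnit u hu
  refine ⟨j, ?_⟩
  rw [hv, map_mul, map_zpow₀, D.V₂.O.valuation_unit v, mul_one]

/-- **(β₂)** -/
theorem alphaData_mid_val
    (X : AlphaData D L ψ q (RingEquiv.refl κ) (RingEquiv.refl κ) ι₃)
    (T : F →*₀ F) (T' : G →*₀ G) (d : ℕ)
    (hcomm : ∀ u : F, normMonoidHom ψ (T u) = T' (normMonoidHom ψ u))
    (gen₁ : ∀ u : F, u ≠ 0 →
      ∃ w : ℤ, D.V₁.O.valuation u = D.V₁.O.valuation (algebraMap K F D.π) ^ w)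
    (hβ₁ : ∀ (u : F) (w : ℤ),
      D.V₁.O.valuation u = D.V₁.O.valuation (algebraMap K F D.π) ^ w →
      D.V₁.O.valuation (T u) = D.V₁.O.valuation (algebraMap K F D.π) ^ ((d : ℤ) * w))
    (hβ' : ∀ (g : G) (w : ℤ),
      L.W₁.O.valuation g = L.W₁.O.valuation (algebraMap K G D.π) ^ w →
      L.W₁.O.valuation (T' g) = L.W₁.O.valuation (algebraMap K G D.π) ^ ((d : ℤ) * w))
    (u : F) (hu : u ≠ 0) (w₂ : ℤ)
    (h₂ : D.V₂.O.valuation u = D.V₂.O.valuation D.ϖ ^ w₂) :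
    D.V₂.O.valuation (T u) = D.V₂.O.valuation D.ϖ ^ ((d : ℤ) * w₂) := by
  obtain ⟨w₁, h₁⟩ := gen₁ u hu
  have hTu : T u ≠ 0 := (map_ne_zero T).2 hu
  obtain ⟨j, hj⟩ := exists_zpow_mid D hTu
  have e1 := X.ord₁ u w₁ w₂ hu h₁ h₂
  have e2 := X.ord₁ (T u) ((d : ℤ) * w₁) j hTu (hβ₁ u w₁ h₁) hj
  have e3 := hβ' _ _ e1
  rw [hcomm] at e2
  have e4 : L.W₁.O.valuation (algebraMap K G D.π) ^ ((d : ℤ) * w₁ + j) =
      L.W₁.O.valuation (algebraMap K G D.π) ^ ((d : ℤ) * (w₁ + w₂)) := e2.symm.trans e3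
  have hpos : 0 < L.W₁.O.valuation (algebraMap K G D.π) :=
    zero_lt_iff.2 ((Valuation.ne_zero_iff _).2 X.base₁.ne_zero)
  have hne1 : L.W₁.O.valuation (algebraMap K G D.π) ≠ 1 := X.base₁.lt_one.ne
  have e5 : (d : ℤ) * w₁ + j = (d : ℤ) * (w₁ + w₂) := zpow_right_injective₀ hpos hne1 e4
  have e6 : j = (d : ℤ) * w₂ := by linarith
  rw [hj, e6]

/-- **(α₂)** -/
theorem alphaData_mid_redF
    (X : AlphaData D L ψ q (RingEquiv.refl κ) (RingEquiv.refl κ) ι₃)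
    (T : F →*₀ F) (T' : G →*₀ G) (S : κ →* κ)
    (hcomm : ∀ u : F, normMonoidHom ψ (T u) = T' (normMonoidHom ψ u))
    (hα₁ : ∀ u : F, D.V₁.redF u ≠ 0 → D.V₁.redF (T u) = S (D.V₁.redF u))
    (hα' : ∀ g : G, L.W₁.redF g ≠ 0 → L.W₁.redF (T' g) = S (L.W₁.redF g))
    (hS0 : ∀ a : κ, a ≠ 0 → S a ≠ 0)
    {u : F} (hu : u ∈ D.O) (hTu : T u ∈ D.O) (hu₁ : D.V₁.redF u ≠ 0) (hu₂ : D.red₂ u ≠ 0) :
    D.red₂ (T u) ^ D.e = S (D.red₂ u) ^ D.e := by
  have h1 : L.W₁.redF (normMonoidHom ψ u) = D.V₁.redF u * D.red₂ u ^ D.e := by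
    have := (X.two hu).2
    rw [pow_one] at this
    exact this
  have h2 : L.W₁.redF (normMonoidHom ψ (T u)) = D.V₁.redF (T u) * D.red₂ (T u) ^ D.e := by
    have := (X.two hTu).2
    rw [pow_one] at this
    exact this
  have hN0 : L.W₁.redF (normMonoidHom ψ u) ≠ 0 := by
    rw [h1]
    exact mul_ne_zero hu₁ (pow_ne_zero _ hu₂)
  have h3 := hα' _ hN0
  rw [← hcomm, h2, h1, map_mul, map_pow, hα₁ u hu₁] at h3
  exact mul_left_cancel₀ (hS0 _ hu₁) h3

end Fermat.Agent.S59lib.LLsqHk
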