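/-
S59lib / LLsqHk / Inst  (helper3)  — Project I, block LLsq, items (α), (β): THE MODULAR INSTANCE.

`T = heckeTop M q A ℓ := heckeFix (M q q) ℓ I_A : FTop M q A →*₀ FTop M q A`, the restriction to the
inertia-fixed function field of level `M q²` of `D.normStd (M q q) ℓ = N_{α_ℓ} ∘ β_ℓ` (the Kummer
representative of `T_ℓ`, `S29lib.D.kummerRel_TJ`), `ℓ ∤ M q` prime;
`T̄ = heckeFunKHom A M ℓ : FRes A M →* FRes A M` (`N_ᾱ ∘ β̄` at level `M` in characteristic `q`).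

* `HeckeEquiv D T d S` : the abstract record of (α), (β) for a thick datum `D` all of whose residue
  fields are ONE field `κ`:
  - `const` : `T c = c ^ d` on `K`-constants;
  - `val₁ val₂ val₃` : `v_i u = v_i(π resp. ϖ) ^ w → v_i (T u) = v_i(π resp. ϖ) ^ (d w)`        (β);
  - `red₁ red₃` : `red_i (T u) = S (red_i u)` for `V_i`-units `u`                                   (α);
  - `red₂` : `(red₂ (T u)) ^ e = (S (red₂ u)) ^ e` for total units `u` (`u, u⁻¹ ∈ D.O`)              (α₂);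
  consequences `HeckeEquiv.unit` (`T` preserves total units), `HeckeEquiv.exists_root_of_unity`
  (`red₂ (T u) = ζ · S (red₂ u)`, `ζ ^ e = 1`).
* `normAlpha_heckeFix` : `N_{α_q} ∘ T = T' ∘ N_{α_q}` on the fixed fields (helper1's function identity
  `S36lib.R2.norm_alpha_norm_alpha_beta_dvd`), `T' = heckeFix (M q) ℓ I_A`;
* **`heckeEquiv_modThick`** : `HeckeEquiv (modThick M q A hqM hA V₁ V₂ V₃) T (ℓ + 1) T̄` for ANY `K`-rational
  data `V₁ V₃` compatible with `v₂₀ = gaussInf₂`, `v₀₂ = gaussZero₂` and ANY `V₂` with helper7's `AlphaData`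
  (in particular for helper4's final datum `J.finD` and for `Inst.topD`).
-/
import Fermat.Agent.S59lib.LLsqHk.HeckeFix
import Fermat.Agent.S59lib.LLsqHk.MidHecke
import Fermat.Agent.S36lib.J.Goal
import Fermat.Agent.S36lib.R2.PushHeckeJDvd
import Fermat.Agent.S36lib.Val.Fix
import Fermat.Agent.S36lib.Norm.RestrictAlong

set_option autoImplicit false
set_option linter.unusedSectionVars false
set_option linter.unusedVariables false
set_option linter.style.haveILetI false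

noncomputable section

namespace Fermat.Agent.S59lib.LLsqHk

open AlgebraicCurve ModularCurve IsLocalRing
open Fermat.Agent.S18lib Fermat.Agent.S29lib Fermat.Agent.LSb Fermat.Agent.LSb.Unit
open Fermat.Agent.S36lib.Desc Fermat.Agent.S36lib.Desc2 Fermat.Agent.S36lib.Inst
open Fermat.Agent.S36lib.Thick Fermat.Agent.S36lib.Norm Fermat.Agent.S36lib.Val
open Fermat.Agent.S36lib.AL Fermat.Agent.LSb.Val
open Fermat.Agent.S37lib.HeckeInst (FB)
open Fermat.Agent.S44lib.Q4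

local notation "Qb" => AlgebraicClosure ℚ

/-! ### the abstract record -/

section Record

variable {K : Type*} [Field K] {R : ValuationSubring K}
variable {F : Type*} [Field F] [Algebra K F]
variable {κ : Type*} [Field κ] [Algebra (ResidueField R) κ]

/-- **(α), (β) for a thick datum** with all residue fields equal to `κ`:
`T` is the Hecke norm, `d = ℓ + 1` its degree, `S = T̄` the Hecke norm of the reduction. -/
structure HeckeEquiv (D : ThickDatum R F κ κ κ) (T : F →*₀ F) (d : ℕ) (S : κ →* κ) : Prop where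
  const : ∀ c : K, T (algebraMap K F c) = algebraMap K F (c ^ d)
  val₁ : ∀ (u : F) (w : ℤ), D.V₁.O.valuation u = D.V₁.O.valuation (algebraMap K F D.π) ^ w →
    D.V₁.O.valuation (T u) = D.V₁.O.valuation (algebraMap K F D.π) ^ ((d : ℤ) * w)
  val₂ : ∀ (u : F), u ≠ 0 → ∀ w : ℤ, D.V₂.O.valuation u = D.V₂.O.valuation D.ϖ ^ w →
    D.V₂.O.valuation (T u) = D.V₂.O.valuation D.ϖ ^ ((d : ℤ) * w)
  val₃ : ∀ (u : F) (w : ℤ), D.V₃.O.valuation u = D.V₃.O.valuation (algebraMap K F D.π) ^ w →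
    D.V₃.O.valuation (T u) = D.V₃.O.valuation (algebraMap K F D.π) ^ ((d : ℤ) * w)
  red₁ : ∀ u : F, D.V₁.redF u ≠ 0 → D.V₁.redF (T u) = S (D.V₁.redF u)
  red₃ : ∀ u : F, D.V₃.redF u ≠ 0 → D.V₃.redF (T u) = S (D.V₃.redF u)
  red₂ : ∀ u : F, u ≠ 0 → u ∈ D.O → u⁻¹ ∈ D.O → D.red₂ (T u) ^ D.e = S (D.red₂ u) ^ D.e

/-- `red₂ u ≠ 0` for a unit of the middle component -/
theorem red₂_ne_zero_of_unit (D : ThickDatum R F κ κ κ) {u : F} (hu0 : u ≠ 0) (hu : u ∈ D.V₂.O)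
    (hui : u⁻¹ ∈ D.V₂.O) : D.red₂ u ≠ 0 := by
  classical
  intro h0
  have e1 : D.red₂ u = D.V₂.red ⟨u, hu⟩ := by rw [ThickDatum.red₂, dif_pos hu]
  have e2 : D.V₂.red ⟨u, hu⟩ * D.V₂.red ⟨u⁻¹, hui⟩ = 1 := by
    rw [← map_mul]
    have : (⟨u, hu⟩ : D.V₂.O) * ⟨u⁻¹, hui⟩ = 1 := Subtype.ext (mul_inv_cancel₀ hu0)
    rw [this, map_one]
  rw [← e1, h0, zero_mul] at e2
  exact zero_ne_one e2

variable {D : ThickDatum R F κ κ κ} {T : F →*₀ F} {d : ℕ} {S : κ →* κ}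

/-- **`T` preserves total units** -/
theorem HeckeEquiv.unit (h : HeckeEquiv D T d S) {u : F} (hu0 : u ≠ 0) (hu : u ∈ D.O)
    (hui : u⁻¹ ∈ D.O) : T u ∈ D.O ∧ (T u)⁻¹ ∈ D.O := by
  obtain ⟨h1, h2, h3⟩ := ThickDatum.mem_O.1 hu
  obtain ⟨h1i, h2i, h3i⟩ := ThickDatum.mem_O.1 hui
  have v1 : D.V₁.O.valuation u = 1 := (val_eq_one_iff_mem _ _).2 ⟨hu0, h1, h1i⟩
  have v2 : D.V₂.O.valuation u = 1 := (val_eq_one_iff_mem _ _).2 ⟨hu0, h2, h2i⟩
  have v3 : D.V₃.O.valuation u = 1 := (val_eq_one_iff_mem _ _).2 ⟨hu0, h3, h3i⟩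
  have w1 := h.val₁ u 0 (by rw [v1, zpow_zero])
  have w2 := h.val₂ u hu0 0 (by rw [v2, zpow_zero])
  have w3 := h.val₃ u 0 (by rw [v3, zpow_zero])
  rw [mul_zero, zpow_zero] at w1 w2 w3
  obtain ⟨-, a1, b1⟩ := (val_eq_one_iff_mem _ _).1 w1
  obtain ⟨-, a2, b2⟩ := (val_eq_one_iff_mem _ _).1 w2
  obtain ⟨-, a3, b3⟩ := (val_eq_one_iff_mem _ _).1 w3
  exact ⟨ThickDatum.mem_O.2 ⟨a1, a2, a3⟩, ThickDatum.mem_O.2 ⟨b1, b2, b3⟩⟩

end Record

/-! ### the modular instance -/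

section Inst

variable (M q : ℕ) [NeZero M] [NeZero q] [hq : Fact q.Prime] (A : ValuationSubring Qb)
  (hqM : ¬ q ∣ M) (hA : A.LiesOverPrime q) (ℓ : ℕ) [NeZero ℓ]

local notation "kA" => IsLocalRing.ResidueField A

/-- `T̄ = N_ᾱ ∘ β̄` at level `M` as a monoid homomorphism -/
def heckeFunKHom : FRes A M →* FRes A M where
  toFun := heckeFunK A M ℓ
  map_one' := by
    unfold heckeFunK
    rw [map_one]
    exact S37lib.ES.normAlong_one _
  map_mul' := heckeFunK_mul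

theorem heckeFunKHom_apply (f : FRes A M) : heckeFunKHom M A ℓ f = heckeFunK A M ℓ f := rfl

theorem heckeFunKHom_ne_zero {f : FRes A M} (hf : f ≠ 0) : heckeFunKHom M A ℓ f ≠ 0 := by
  rw [heckeFunKHom_apply]
  exact heckeFunK_ne_zero hf

/-- **the Hecke norm on the inertia-fixed function field of level `M q²`** -/
abbrev heckeTop : FTop M q A →*₀ FTop M q A := heckeFix (M * q * q) ℓ (HI A)

/-- the Hecke norm on the inertia-fixed function field of level `M q` -/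
abbrev heckeMid : FMid M q A →*₀ FMid M q A := heckeFix (M * q) ℓ (HI A)

variable {M q A ℓ}

include hq hqM in
theorem not_dvd_aux (hℓ : ℓ.Prime) (hℓM : ¬ ℓ ∣ M) (hqℓ : q ≠ ℓ) :
    ¬ ℓ ∣ M * q ∧ ¬ ℓ ∣ M * q * q ∧ ¬ q ∣ M * ℓ ∧ ¬ q ∣ ℓ := by
  have h1 : ¬ ℓ ∣ q := fun h => hqℓ ((Nat.prime_dvd_prime_iff_eq hℓ hq.out).1 h).symm
  have h2 : ¬ q ∣ ℓ := fun h => hqℓ ((Nat.prime_dvd_prime_iff_eq hq.out hℓ).1 h)
  have h3 : ¬ ℓ ∣ M * q := fun h => (hℓ.dvd_mul.1 h).elim hℓM h1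
  refine ⟨h3, fun h => (hℓ.dvd_mul.1 h).elim h3 h1, fun h => (hq.out.dvd_mul.1 h).elim hqM h2, h2⟩

/-- `v₂₀` is Hecke-good -/
theorem isHeckeGood_gaussInf₂ (hℓ : ℓ.Prime) (hℓM : ¬ ℓ ∣ M) (hqℓ : q ≠ ℓ) :
    IsHeckeGood (gaussInf₂ M q A hqM hA) ℓ := by
  obtain ⟨h1, h2, h3, h4⟩ := not_dvd_aux hqM hℓ hℓM hqℓ
  exact isHeckeGood_of_isGaussInf (c := q * q) (isGaussInf_gaussInf₂ M q A hqM hA)
    (Nat.mul_assoc M q q) hA hqℓ hℓ h2 h3 hℓM

/-- `v₁₀` is Hecke-good -/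
theorem isHeckeGood_gaussOne (hℓ : ℓ.Prime) (hℓM : ¬ ℓ ∣ M) (hqℓ : q ≠ ℓ) :
    IsHeckeGood (gaussOne M q A hqM hA) ℓ := by
  obtain ⟨h1, h2, h3, h4⟩ := not_dvd_aux hqM hℓ hℓM hqℓ
  exact isHeckeGood_of_isGaussInf (c := q) (isGaussInf_gaussOne M q A hqM hA) rfl hA hqℓ hℓ h1 h3
    hℓM

/-- `v₀₂` is Hecke-good -/
theorem isHeckeGood_gaussZero₂ (hℓ : ℓ.Prime) (hℓM : ¬ ℓ ∣ M) (hqℓ : q ≠ ℓ) :
    IsHeckeGood (gaussZero₂ M q A hqM hA) ℓ := by
  obtain ⟨h1, h2, h3, h4⟩ := not_dvd_aux hqM hℓ hℓM hqℓ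
  have hc := isGaussZero₂_gaussZero₂ M q A hqM hA
  exact (isHeckeGood_gaussInf₂ hqM hA hℓ hℓM hqℓ).of_comp (wqq M q hq.out hqM) hc.mem_iff hc.redF
    (fun f => normStd_wqq M q hq.out hqM ℓ h4 f)

include hqM in
/-- **`N_{α_q} ∘ T = T' ∘ N_{α_q}`** on the fixed fields -/
theorem normAlpha_heckeFix (hℓ : ℓ.Prime) (hℓM : ¬ ℓ ∣ M) (hqℓ : q ≠ ℓ) (u : FTop M q A) :
    normMonoidHom (alphaFix M q (HI A)) (heckeTop M q A ℓ u) =
      heckeMid M q A ℓ (normMonoidHom (alphaFix M q (HI A)) u) := by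
  obtain ⟨h1, h2, h3, h4⟩ := not_dvd_aux hqM hℓ hℓM hqℓ
  haveI : Fact ℓ.Prime := ⟨hℓ⟩
  apply Subtype.ext
  rw [normMonoidHom_apply, coe_normHom_alphaFix M q (HI A) hq.out hqM, coe_heckeFix, coe_heckeFix,
    normMonoidHom_apply, coe_normHom_alphaFix M q (HI A) hq.out hqM]
  exact Fermat.Agent.S36lib.R2.norm_alpha_norm_alpha_beta_dvd (N := M * q) (Dvd.intro_left M rfl)
    h1 h2 Fermat.Agent.ProgramR.BarField.qbarEmb (u : FB (M * q * q))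

variable [HasPrincipalDivisors (IsLocalRing.ResidueField (Wfix A)) (FRes A M)]

/-- **(α), (β) for the modular thick datum** -/
theorem heckeEquiv_modThick (hℓ : ℓ.Prime) (hℓM : ¬ ℓ ∣ M) (hqℓ : q ≠ ℓ)
    (V₁ V₃ : GaussDatum (Wfix A) (FTop M q A) (FRes A M))
    (V₂ : RamGaussDatum (Wfix A) (FTop M q A) (FRes A M))
    (c₁ : Compat (gaussInf₂ M q A hqM hA) V₁) (c₃ : Compat (gaussZero₂ M q A hqM hA) V₃)
    (X : AlphaData (modThick M q A hqM hA V₁ V₂ V₃)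
      (modLow M q A hqM hA (gaussOneK M q A hqM hA) (gaussTwoK M q A hqM hA))
      (alphaFix M q (HI A)) q (RingEquiv.refl (FRes A M)) (RingEquiv.refl (FRes A M)) (VqR hA)) :
    HeckeEquiv (modThick M q A hqM hA V₁ V₂ V₃) (heckeTop M q A ℓ) (ℓ + 1)
      (heckeFunKHom M A ℓ) := by
  obtain ⟨h1, h2, h3, h4⟩ := not_dvd_aux hqM hℓ hℓM hqℓ
  have g₁ := isHeckeGood_gaussInf₂ hqM hA hℓ hℓM hqℓ
  have g₃ := isHeckeGood_gaussZero₂ hqM hA hℓ hℓM hqℓ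
  have g' := isHeckeGood_gaussOne hqM hA hℓ hℓM hqℓ
  have hπ : qK A q ≠ 0 := qK_ne_zero hq.out
  have hval₁ : ∀ (u : FTop M q A) (w : ℤ),
      V₁.O.valuation u = V₁.O.valuation (algebraMap (Kfix A) (FTop M q A) (qK A q)) ^ w →
      V₁.O.valuation (heckeTop M q A ℓ u) =
        V₁.O.valuation (algebraMap (Kfix A) (FTop M q A) (qK A q)) ^ (((ℓ + 1 : ℕ) : ℤ) * w) :=
    fun u w hu => g₁.fix_val c₁ hℓ h2 hπ u w hu
  have hval' : ∀ (g : FMid M q A) (w : ℤ),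
      (gaussOneK M q A hqM hA).O.valuation g =
        (gaussOneK M q A hqM hA).O.valuation (algebraMap (Kfix A) (FMid M q A) (qK A q)) ^ w →
      (gaussOneK M q A hqM hA).O.valuation (heckeMid M q A ℓ g) =
        (gaussOneK M q A hqM hA).O.valuation (algebraMap (Kfix A) (FMid M q A) (qK A q)) ^
          (((ℓ + 1 : ℕ) : ℤ) * w) :=
    fun g w hg => g'.fix_val (compat_gaussOneK M q A hqM hA) hℓ h1 hπ g w hg
  have hgen₁ : ∀ u : FTop M q A, u ≠ 0 → ∃ w : ℤ,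
      V₁.O.valuation u = V₁.O.valuation (algebraMap (Kfix A) (FTop M q A) (qK A q)) ^ w :=
    fun u hu => exists_zpow_ofGauss V₁ hπ (fun c hc => exists_zpow_Wfix hq.out hA c hc) hu
  have hred₁ : ∀ u : FTop M q A, V₁.redF u ≠ 0 →
      V₁.redF (heckeTop M q A ℓ u) = heckeFunKHom M A ℓ (V₁.redF u) :=
    fun u hu => (g₁.fix_redF c₁ hu).2
  have hred' : ∀ g : FMid M q A, (gaussOneK M q A hqM hA).redF g ≠ 0 →
      (gaussOneK M q A hqM hA).redF (heckeMid M q A ℓ g) =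
        heckeFunKHom M A ℓ ((gaussOneK M q A hqM hA).redF g) :=
    fun g hg => (g'.fix_redF (compat_gaussOneK M q A hqM hA) hg).2
  have hcomm := normAlpha_heckeFix (A := A) hqM hℓ hℓM hqℓ
  have hval₂ : ∀ (u : FTop M q A), u ≠ 0 → ∀ w : ℤ,
      V₂.O.valuation u = V₂.O.valuation V₂.unif ^ w →
      V₂.O.valuation (heckeTop M q A ℓ u) = V₂.O.valuation V₂.unif ^ (((ℓ + 1 : ℕ) : ℤ) * w) :=
    fun u hu w hw => alphaData_mid_val X (heckeTop M q A ℓ) (heckeMid M q A ℓ) (ℓ + 1) hcomm hgen₁ hval₁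
      hval' u hu w hw
  have hval₃ : ∀ (u : FTop M q A) (w : ℤ),
      V₃.O.valuation u = V₃.O.valuation (algebraMap (Kfix A) (FTop M q A) (qK A q)) ^ w →
      V₃.O.valuation (heckeTop M q A ℓ u) =
        V₃.O.valuation (algebraMap (Kfix A) (FTop M q A) (qK A q)) ^ (((ℓ + 1 : ℕ) : ℤ) * w) :=
    fun u w hu => g₃.fix_val c₃ hℓ h2 hπ u w hu
  refine
    { const := fun c => heckeFix_algebraMap (M * q * q) ℓ (HI A) hℓ h2 c
      val₁ := hval₁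
      val₂ := hval₂
      val₃ := hval₃
      red₁ := hred₁
      red₃ := fun u hu => (g₃.fix_redF c₃ hu).2
      red₂ := ?_ }
  intro u hu0 hu hui
  obtain ⟨m1, m2, m3⟩ := ThickDatum.mem_O.1 hu
  obtain ⟨i1, i2, i3⟩ := ThickDatum.mem_O.1 hui
  have m1' : u ∈ V₁.O := m1
  have m2' : u ∈ V₂.O := m2
  have m3' : u ∈ V₃.O := m3
  have i1' : u⁻¹ ∈ V₁.O := i1
  have i2' : u⁻¹ ∈ V₂.O := i2
  have i3' : u⁻¹ ∈ V₃.O := i3
  -- `T u` is a total unit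
  have v1 : V₁.O.valuation u = 1 := (val_eq_one_iff_mem _ _).2 ⟨hu0, m1', i1'⟩
  have v2 : V₂.O.valuation u = 1 := (val_eq_one_iff_mem _ _).2 ⟨hu0, m2', i2'⟩
  have v3 : V₃.O.valuation u = 1 := (val_eq_one_iff_mem _ _).2 ⟨hu0, m3', i3'⟩
  have w1 := hval₁ u 0 (by rw [zpow_zero]; exact v1)
  have w2 := hval₂ u hu0 0 (by rw [zpow_zero]; exact v2)
  have w3 := hval₃ u 0 (by rw [zpow_zero]; exact v3)
  rw [mul_zero, zpow_zero] at w1 w2 w3
  have t1 : heckeTop M q A ℓ u ∈ V₁.O := ((val_eq_one_iff_mem _ _).1 w1).2.1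
  have t2 : heckeTop M q A ℓ u ∈ V₂.O := ((val_eq_one_iff_mem _ _).1 w2).2.1
  have t3 : heckeTop M q A ℓ u ∈ V₃.O := ((val_eq_one_iff_mem _ _).1 w3).2.1
  have hTu : heckeTop M q A ℓ u ∈ (modThick M q A hqM hA V₁ V₂ V₃).O :=
    ThickDatum.mem_O.2 ⟨t1, t2, t3⟩
  have hu₁ : V₁.redF u ≠ 0 := Old.redF_ne_zero_of_mem_of_inv_mem V₁ m1' i1' hu0
  have hu₂ : (modThick M q A hqM hA V₁ V₂ V₃).red₂ u ≠ 0 :=
    red₂_ne_zero_of_unit (modThick M q A hqM hA V₁ V₂ V₃) hu0 m2 i2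
  exact alphaData_mid_redF X (heckeTop M q A ℓ) (heckeMid M q A ℓ) (heckeFunKHom M A ℓ) hcomm
    hred₁ hred' (fun a ha => heckeFunKHom_ne_zero M A ℓ ha) hu hTu hu₁ hu₂

end Inst

end Fermat.Agent.S59lib.LLsqHk
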