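/-
S59lib / LLsqHk / InstFin  (helper3)  — Project I, block LLsq, items (α), (β): the final datum.

`heckeEquiv_finD` : the record `HeckeEquiv` of `LLsqHk/Inst` for helper4's FINAL thick datum
`J.finD ϖ h0 hv = modThick topV₁ (ramWithUnif topV₂ ϖ h0 hv) topV₃` (the datum for which `J.ModBricks` is
proved in `S36lib/J/Bricks`), given only its `ThickCtx`.
-/
import Fermat.Agent.S59lib.LLsqHk.Inst
import Fermat.Agent.S36lib.J.Bricks

set_option autoImplicit false
set_option linter.unusedSectionVars false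
set_option linter.unusedVariables false
set_option linter.style.haveILetI false

noncomputable section

namespace Fermat.Agent.S59lib.LLsqHk

open AlgebraicCurve ModularCurve IsLocalRing
open Fermat.Agent.S18lib Fermat.Agent.ProgramR
open Fermat.Agent.S36lib Fermat.Agent.S36lib.Thick Fermat.Agent.S36lib.Desc Fermat.Agent.S36lib.Desc2
open Fermat.Agent.S36lib.Inst Fermat.Agent.S36lib.Norm Fermat.Agent.S36lib.J
open Fermat.Agent.S37lib.HeckeInst (FB)

local notation "Qb" => AlgebraicClosure ℚ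

variable {M q : ℕ} [NeZero M] [NeZero q] [hq : Fact q.Prime] {A : ValuationSubring Qb}
  {hqM : ¬ q ∣ M} {hA : A.LiesOverPrime q} {ℓ : ℕ} [NeZero ℓ]

variable [HasPrincipalDivisors (IsLocalRing.ResidueField A) (FRes A M)]
variable [HasPrincipalDivisors (IsLocalRing.ResidueField (Wfix A)) (FRes A M)]
variable [HasPrincipalDivisors Qb (FBar M)]
variable [NeZero (M * q)]
variable [HasPrincipalDivisors Qb (FBar (M * q))]

/-- **(α), (β) for the final thick datum** -/
theorem heckeEquiv_finD (hℓ : ℓ.Prime) (hℓM : ¬ ℓ ∣ M) (hqℓ : q ≠ ℓ) (ϖ : FTop M q A)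
    (h0 : (topD M q A hqM hA).V₂.unif ≠ 0)
    (hv : (topD M q A hqM hA).V₂.O.valuation ϖ =
      (topD M q A hqM hA).V₂.O.valuation (topD M q A hqM hA).V₂.unif) {g gM : ℕ}
    (C : ThickCtx (finD (hqM := hqM) (hA := hA) ϖ h0 hv) g gM gM gM) :
    HeckeEquiv (finD (hqM := hqM) (hA := hA) ϖ h0 hv) (heckeTop M q A ℓ) (ℓ + 1)
      (heckeFunKHom M A ℓ) :=
  heckeEquiv_modThick hqM hA hℓ hℓM hqℓ (topV₁ M q A hqM hA) (topV₃ M q A hqM hA)
    (Reg.ramWithUnif (topV₂ M q A hqM hA) ϖ h0 hv) (compat_restrictDatum _) (compat_restrictDatum _)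
    (finD_alphaData ϖ h0 hv C)

end Fermat.Agent.S59lib.LLsqHk
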